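import Mathlib

/-!
# Joint eigenvectors with a prescribed eigencharacter

`T` is a commutative ring acting on a finite-dimensional complex vector space `V`, integrally
with respect to a spanning set `L` and a separating family of functionals.  Then every ring
homomorphism `T →+* ℂ` which kills the kernel of the action occurs as an eigencharacter.
-/

set_option autoImplicit false

noncomputable section

namespace Fermat.Agent.Eigen

variable {K : Type*} [Field K] {V : Type*} [AddCommGroup V] [Module K V]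

/-- Pairwise commuting endomorphisms of a finite-dimensional space over an algebraically closed
field have a common eigenvector in every nonzero invariant subspace. -/
theorem exists_joint_eigen_mem [IsAlgClosed K] [FiniteDimensional K V] {ι : Type*}
    (ρ : ι → Module.End K V) (hcomm : ∀ i j, Commute (ρ i) (ρ j))
    (W : Submodule K V) (hW : W ≠ ⊥) (hinv : ∀ i, ∀ w ∈ W, ρ i w ∈ W) :
    ∃ v ∈ W, v ≠ 0 ∧ ∃ μ : ι → K, ∀ i, ρ i v = μ i • v := by
  induction W using WellFoundedLT.induction with
  | ind W ih =>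
    obtain ⟨v, hvW, hv⟩ := (Submodule.ne_bot_iff W).mp hW
    by_cases hall : ∀ i, ∃ μ : K, ∀ w ∈ W, ρ i w = μ • w
    · choose μ hμ using hall
      exact ⟨v, hvW, hv, μ, fun i => hμ i v hvW⟩
    · push Not at hall
      obtain ⟨i, hi⟩ := hall
      haveI : Nontrivial W := Submodule.nontrivial_iff_ne_bot.mpr hW
      obtain ⟨μ, hμ⟩ := Module.End.exists_eigenvalue ((ρ i).restrict (hinv i))
      obtain ⟨w, hw, hw0⟩ := hμ.exists_hasEigenvector
      have hw' : ρ i (w : V) = μ • (w : V) :=
        congrArg Subtype.val (Module.End.mem_eigenspace_iff.mp hw)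
      let W' : Submodule K V := W ⊓ (ρ i).eigenspace μ
      have hlt : W' < W := by
        refine lt_of_le_of_ne inf_le_left fun heq => ?_
        obtain ⟨x, hx, hne⟩ := hi μ
        exact hne (Module.End.mem_eigenspace_iff.mp ((inf_eq_left.mp heq) hx))
      have hne : W' ≠ ⊥ := (Submodule.ne_bot_iff _).mpr
        ⟨w, ⟨w.2, Module.End.mem_eigenspace_iff.mpr hw'⟩,
          fun h => hw0 (Subtype.ext h)⟩
      obtain ⟨x, hx, h2⟩ := ih W' hlt hne fun j y hy => by
        refine ⟨hinv j y hy.1, Module.End.mem_eigenspace_iff.mpr ?_⟩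
        calc ρ i (ρ j y) = (ρ i * ρ j) y := rfl
          _ = (ρ j * ρ i) y := by rw [(hcomm i j).eq]
          _ = ρ j (μ • y) := congrArg (ρ j) (Module.End.mem_eigenspace_iff.mp hy.2)
          _ = μ • ρ j y := map_smul _ _ _
      exact ⟨x, hx.1, h2⟩

variable {T : Type*} [CommRing T]

/-- If every linear relation in the image of `ρ` is respected by `χ`, then `χ` is the
eigencharacter of some nonzero vector. -/
theorem exists_eigen_of_relations [IsAlgClosed K] [FiniteDimensional K V]
    (ρ : T →+* Module.End K V) (χ : T →+* K)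
    (hrel : ∀ a : MonoidAlgebra K T, MonoidAlgebra.lift K _ T ρ.toMonoidHom a = 0 →
      MonoidAlgebra.lift K _ T χ.toMonoidHom a = 0) :
    ∃ v : V, v ≠ 0 ∧ ∀ t, ρ t v = χ t • v := by
  set R := MonoidAlgebra.lift K (Module.End K V) T ρ.toMonoidHom with hR
  set X := MonoidAlgebra.lift K K T χ.toMonoidHom with hX
  by_contra hno
  push Not at hno
  suffices key : ∀ W : Submodule K V, (∀ t, ∀ w ∈ W, ρ t w ∈ W) →
      ∃ a, X a ≠ 0 ∧ ∀ w ∈ W, R a w = 0 by
    obtain ⟨a, ha, ha'⟩ := key ⊤ fun _ _ _ => trivial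
    exact ha (hrel a (LinearMap.ext fun w => ha' w trivial))
  intro W
  induction W using WellFoundedLT.induction with
  | ind W ih =>
    intro hinv
    by_cases hW : W = ⊥
    · refine ⟨1, by simp, fun w hw => ?_⟩
      rw [hW, Submodule.mem_bot] at hw
      simp [hw]
    obtain ⟨v, hvW, hv, μ, hμ⟩ :=
      exists_joint_eigen_mem (fun t => ρ t) (fun i j => (Commute.all i j).map ρ) W hW hinv
    obtain ⟨t, ht⟩ := hno v hv
    have hne : χ t ≠ μ t := fun h => ht (by rw [h]; exact hμ t)
    let f : Module.End K V := ρ t - μ t • 1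
    have hf : ∀ w, f w = ρ t w - μ t • w := fun w => rfl
    have hle : W.map f ≤ W := by
      rintro _ ⟨w, hw, rfl⟩
      rw [hf]
      exact W.sub_mem (hinv t w hw) (W.smul_mem _ hw)
    have hfv : f v = 0 := by rw [hf, hμ t, sub_self]
    have hlt : W.map f < W := by
      refine lt_of_le_of_ne hle fun heq => ?_
      have hmem : ∀ w ∈ W, f w ∈ W := fun w hw => hle ⟨w, hw, rfl⟩
      have hsurj : Function.Surjective (f.restrict hmem) := fun w => by
        obtain ⟨x, hx, hxe⟩ := heq.symm.le w.2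
        exact ⟨⟨x, hx⟩, Subtype.ext hxe⟩
      have hinj := LinearMap.injective_iff_surjective.mpr hsurj
      have h0 : (⟨v, hvW⟩ : W) = 0 := hinj (by
        rw [map_zero]; exact Subtype.ext hfv)
      exact hv (congrArg Subtype.val h0)
    obtain ⟨a, ha, ha'⟩ := ih _ hlt (by
      rintro s _ ⟨w, hw, rfl⟩
      refine ⟨ρ s w, hinv s w hw, ?_⟩
      rw [hf, hf, map_sub, map_smul]
      have h : ρ s (ρ t w) = ρ t (ρ s w) :=
        LinearMap.congr_fun ((Commute.all s t).map ρ).eq w
      rw [h])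
    refine ⟨a * (MonoidAlgebra.single t 1 - algebraMap K _ (μ t)), ?_, fun w hw => ?_⟩
    · rw [map_mul, map_sub, AlgHom.commutes]
      refine mul_ne_zero ha ?_
      simp [hX, sub_ne_zero, hne]
    · have h1 : R (MonoidAlgebra.single t 1 - algebraMap K _ (μ t)) = f := by
        rw [map_sub, AlgHom.commutes, hR, MonoidAlgebra.lift_single, one_smul,
          Algebra.algebraMap_eq_smul_one]
        rfl
      rw [map_mul, h1]
      exact ha' (f w) ⟨w, hw, rfl⟩

variable {W : Type*} [AddCommGroup W] [Module ℂ W] {ι : Type*}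

/-- Linear relations among operators that are integral with respect to a spanning set and a
separating family of functionals are respected by every character. -/
theorem relations_respected (ρ : T →+* Module.End ℂ W) (χ : T →+* ℂ)
    (L : Set W) (hL : Submodule.span ℂ L = ⊤) (Φ : ι → W →ₗ[ℂ] ℂ)
    (hΦ : ∀ w, (∀ i, Φ i w = 0) → w = 0)
    (hint : ∀ (t : T), ∀ g ∈ L, ∀ i, ∃ m : ℤ, Φ i (ρ t g) = m)
    (hker : ∀ t, ρ t = 0 → χ t = 0) (a : MonoidAlgebra ℂ T)
    (ha : MonoidAlgebra.lift ℂ _ T ρ.toMonoidHom a = 0) :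
    MonoidAlgebra.lift ℂ _ T χ.toMonoidHom a = 0 := by
  classical
  rw [MonoidAlgebra.lift_apply] at ha ⊢
  simp only [Finsupp.sum, RingHom.toMonoidHom_eq_coe, MonoidHom.coe_coe, smul_eq_mul] at ha ⊢
  set s := a.coeff.support
  set c : T → ℂ := fun t => a.coeff t
  change ∑ t ∈ s, c t • ρ t = 0 at ha
  change ∑ t ∈ s, c t * χ t = 0
  let e := Module.Free.chooseBasis ℚ ℂ
  have key : ∀ j, ∑ t ∈ s, ((e.repr (c t) j : ℚ) : ℂ) * χ t = 0 := fun j => by
    set r : T → ℚ := fun t => e.repr (c t) j with hr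
    have h1 : ∀ g ∈ L, (∑ t ∈ s, (r t : ℂ) • ρ t) g = 0 := fun g hg => by
      refine hΦ _ fun i => ?_
      choose m hm using fun t => hint t g hg i
      simp only [LinearMap.sum_apply, LinearMap.smul_apply, map_sum, map_smul, hm, smul_eq_mul]
      have h2 : ∑ t ∈ s, (m t : ℚ) • c t = 0 := by
        have := congrArg (fun f : Module.End ℂ W => Φ i (f g)) ha
        simp only [LinearMap.sum_apply, LinearMap.smul_apply, map_sum, map_smul, hm, smul_eq_mul,
          LinearMap.zero_apply, map_zero] at this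
        simpa [Rat.smul_def, mul_comm] using this
      have h3 := congrArg (fun z => e.repr z j) h2
      simp only [map_sum, map_smul, Finsupp.coe_finsetSum, Finset.sum_apply, Finsupp.smul_apply,
        smul_eq_mul, map_zero, Finsupp.zero_apply] at h3
      have h4 : ((∑ t ∈ s, (m t : ℚ) * r t : ℚ) : ℂ) = 0 := by rw [hr, h3, Rat.cast_zero]
      push_cast at h4
      simpa [mul_comm] using h4
    have h5 : ∑ t ∈ s, (r t : ℂ) • ρ t = 0 :=
      LinearMap.ext_on hL fun g hg => h1 g hg
    obtain ⟨D, hD0, n, hn⟩ : ∃ D : ℤ, D ≠ 0 ∧ ∃ n : T → ℤ, ∀ t ∈ s, (n t : ℂ) = D * r t := by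
      refine ⟨∏ t ∈ s, ((r t).den : ℤ), Finset.prod_ne_zero_iff.mpr fun t _ => by simp,
        fun t => (∏ u ∈ s.erase t, ((r u).den : ℤ)) * (r t).num, fun t ht => ?_⟩
      rw [← Finset.mul_prod_erase s _ ht]
      push_cast
      rw [Rat.cast_def]
      have : ((r t).den : ℂ) ≠ 0 := by exact_mod_cast (r t).den_ne_zero
      field_simp
    have h6 : ρ (∑ t ∈ s, n t • t) = 0 := by
      rw [map_sum]
      calc ∑ t ∈ s, ρ (n t • t) = ∑ t ∈ s, ((D : ℂ) * (r t : ℂ)) • ρ t :=
            Finset.sum_congr rfl fun t ht => by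
              rw [map_zsmul, ← hn t ht, Int.cast_smul_eq_zsmul]
        _ = (D : ℂ) • ∑ t ∈ s, (r t : ℂ) • ρ t := by simp only [Finset.smul_sum, mul_smul]
        _ = 0 := by rw [h5, smul_zero]
    have h7 := hker _ h6
    rw [map_sum] at h7
    have h8 : (D : ℂ) * ∑ t ∈ s, (r t : ℂ) * χ t = 0 := by
      rw [← h7, Finset.mul_sum]
      exact Finset.sum_congr rfl fun t ht => by
        rw [map_zsmul, ← mul_assoc, ← hn t ht, zsmul_eq_mul]
    exact (mul_eq_zero.mp h8).resolve_left (by exact_mod_cast hD0)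
  let J := s.biUnion fun t => (e.repr (c t)).support
  have hc : ∀ t ∈ s, c t = ∑ j ∈ J, ((e.repr (c t) j : ℚ) : ℂ) * e j := fun t ht => by
    have hsup : (e.repr (c t)).support ⊆ J :=
      Finset.subset_biUnion_of_mem (fun t => (e.repr (c t)).support) ht
    have h0 := e.linearCombination_repr (c t)
    rw [Finsupp.linearCombination_apply, Finsupp.sum_of_support_subset _ hsup _
      (fun j _ => zero_smul ℚ (e j))] at h0
    refine h0.symm.trans ?_
    exact Finset.sum_congr rfl fun j _ => Rat.smul_def _ _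
  calc ∑ t ∈ s, c t * χ t = ∑ t ∈ s, ∑ j ∈ J, ((e.repr (c t) j : ℚ) : ℂ) * χ t * e j :=
        Finset.sum_congr rfl fun t ht => by
          conv_lhs => rw [hc t ht, Finset.sum_mul]
          exact Finset.sum_congr rfl fun j _ => by ring
    _ = ∑ j ∈ J, (∑ t ∈ s, ((e.repr (c t) j : ℚ) : ℂ) * χ t) * e j := by
        rw [Finset.sum_comm]; simp only [Finset.sum_mul]
    _ = 0 := by simp [key]

/-- Every character of an integrally acting commutative ring which kills the kernel of the
action is the eigencharacter of some nonzero vector. -/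
theorem exists_eigen_of_integral [FiniteDimensional ℂ W] (ρ : T →+* Module.End ℂ W)
    (χ : T →+* ℂ) (L : Set W) (hL : Submodule.span ℂ L = ⊤) (Φ : ι → W →ₗ[ℂ] ℂ)
    (hΦ : ∀ w, (∀ i, Φ i w = 0) → w = 0)
    (hint : ∀ (t : T), ∀ g ∈ L, ∀ i, ∃ m : ℤ, Φ i (ρ t g) = m)
    (hker : ∀ t, ρ t = 0 → χ t = 0) :
    ∃ w : W, w ≠ 0 ∧ ∀ t, ρ t w = χ t • w :=
  exists_eigen_of_relations ρ χ (relations_respected ρ χ L hL Φ hΦ hint hker)

end Fermat.Agent.Eigen
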