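import Fermat.Agent.Eigen.QCoeff
import Fermat.Agent.Eigen.JointEigen
import Fermat.Prelude.Def_CuspForm_IntegralStructure
import Fermat.Prelude.Def_CuspForm_HeckeLocal
import Fermat.Prelude.Thm_CuspForm_mem_intLattice_of_mem_heckeAlgebra

/-!
# Weight-2 eigenforms and characters of the Hecke algebra

* every normalised eigenform is an eigenvector of every Hecke operator (`eigenChar`);
* a simultaneous eigenvector of all `T_ℓ`, `U_q` is a multiple of a normalised eigenform;
* given the integral structure, every character of `heckeAlgebra N 2 S` is realised by a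
  normalised eigenform of level `N`, and the Hecke algebra is finite over `ℤ`.
-/

set_option autoImplicit false

noncomputable section

open CongruenceSubgroup ModularFormClass

namespace Fermat.Agent.Eigen

/-- Weight-2 cusp forms on `Γ₀(N)`. -/
abbrev S2 (N : ℕ) : Type := CuspForm (Gamma0 N) 2

variable {N : ℕ}

section Eigenform

variable {f : CuspForm (Gamma0 N) 2}

private lemma split_prime_pow {p n : ℕ} (hp : p.Prime) (hn : n ≠ 0) :
    ∃ r m : ℕ, ¬ p ∣ m ∧ n = p ^ r * m :=
  Nat.exists_eq_pow_mul_and_not_dvd hn p hp.ne_one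

private lemma coprime_pow_of_not_dvd {p m : ℕ} (hp : p.Prime) (hm : ¬ p ∣ m) (r : ℕ) :
    (p ^ r).Coprime m :=
  ((hp.coprime_iff_not_dvd).mpr hm).pow_left r

/-- Coefficient form of `T_p f = a_p f` for a normalised eigenform. -/
lemma qCoeff_prime_mul_of_not_dvd (hf : f.IsNormalizedEigenform) {p : ℕ} (hp : p.Prime)
    (hpN : ¬ p ∣ N) (n : ℕ) :
    qCoeff f (n * p) + (if p ∣ n then (p : ℂ) * qCoeff f (n / p) else 0)
      = qCoeff f p * qCoeff f n := by
  rcases eq_or_ne n 0 with rfl | hn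
  · simp [qCoeff_index_zero]
  obtain ⟨r, m, hm, rfl⟩ := split_prime_pow hp hn
  have hc := coprime_pow_of_not_dvd hp hm
  rcases r with _ | r
  · rw [pow_zero, one_mul, if_neg hm, add_zero, mul_comm m p]
    exact hf.qCoeff_mul_of_coprime p m (by simpa using hc 1)
  · have hd : p ∣ p ^ (r + 1) * m := (dvd_pow_self p (by omega)).mul_right m
    have hdiv : p ^ (r + 1) * m / p = p ^ r * m := by
      rw [pow_succ', mul_assoc, Nat.mul_div_cancel_left _ hp.pos]
    have hmul : p ^ (r + 1) * m * p = p ^ (r + 2) * m := by ring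
    rw [if_pos hd, hdiv, hmul, hf.qCoeff_mul_of_coprime _ _ (hc _),
      hf.qCoeff_mul_of_coprime _ _ (hc _), hf.qCoeff_mul_of_coprime _ _ (hc _),
      hf.qCoeff_prime_pow_of_not_dvd p r hp hpN]
    ring

/-- Coefficient form of `U_q f = a_q f` for a normalised eigenform. -/
lemma qCoeff_prime_mul_of_dvd (hf : f.IsNormalizedEigenform) {p : ℕ} (hp : p.Prime)
    (hpN : p ∣ N) (n : ℕ) : qCoeff f (n * p) = qCoeff f p * qCoeff f n := by
  rcases eq_or_ne n 0 with rfl | hn
  · simp [qCoeff_index_zero]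
  obtain ⟨r, m, hm, rfl⟩ := split_prime_pow hp hn
  have hc := coprime_pow_of_not_dvd hp hm
  rcases r with _ | r
  · rw [pow_zero, one_mul, mul_comm m p]
    exact hf.qCoeff_mul_of_coprime p m (by simpa using hc 1)
  · have hmul : p ^ (r + 1) * m * p = p ^ (r + 2) * m := by ring
    rw [hmul, hf.qCoeff_mul_of_coprime _ _ (hc _),
      hf.qCoeff_mul_of_coprime _ _ (hc _), hf.qCoeff_prime_pow_of_dvd p r hp hpN]
    ring

theorem heckeTLin_eigenform (hf : f.IsNormalizedEigenform) {p : ℕ} (hp : p.Prime)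
    (hpN : ¬ p ∣ N) : CuspForm.heckeTLin 2 hp hpN f = qCoeff f p • f :=
  ext_qCoeff fun n => by
    rw [qCoeff_heckeTLin_two, qCoeff_smul, qCoeff_prime_mul_of_not_dvd hf hp hpN]

theorem heckeULin_eigenform [NeZero N] (hf : f.IsNormalizedEigenform) {p : ℕ} (hp : p.Prime)
    (hpN : p ∣ N) : CuspForm.heckeULin 2 hpN f = qCoeff f p • f :=
  ext_qCoeff fun n => by
    rw [qCoeff_heckeULin hp.ne_zero, qCoeff_smul, qCoeff_prime_mul_of_dvd hf hp hpN]

lemma eigenform_ne_zero (hf : f.IsNormalizedEigenform) : f ≠ 0 := fun h => by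
  have h1 := hf.qCoeff_one
  rw [h, qCoeff_form_zero] at h1
  exact zero_ne_one h1

/-- A normalised eigenform is an eigenvector of every element of the Hecke algebra. -/
theorem hecke_apply_eigenform [NeZero N] (hf : f.IsNormalizedEigenform) {S : Set ℕ}
    (t : CuspForm.heckeAlgebra N 2 S) :
    (t : Module.End ℂ (S2 N)) f = qCoeff ((t : Module.End ℂ (S2 N)) f) 1 • f := by
  obtain ⟨t, ht⟩ := t
  suffices h : ∃ c : ℂ, t f = c • f by
    obtain ⟨c, hc⟩ := h
    simp only [hc, qCoeff_smul, hf.qCoeff_one, mul_one]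
  induction ht using Algebra.adjoin_induction with
  | mem x hx =>
    rcases hx with ⟨ℓ, hℓ, hℓN, -, rfl⟩ | ⟨q, hqN, hq, -, rfl⟩
    · exact ⟨_, heckeTLin_eigenform hf hℓ hℓN⟩
    · exact ⟨_, heckeULin_eigenform hf hq hqN⟩
  | algebraMap r =>
    exact ⟨(r : ℂ), by rw [Module.algebraMap_end_apply, Int.cast_smul_eq_zsmul]⟩
  | add x y _ _ hx hy =>
    obtain ⟨c, hc⟩ := hx
    obtain ⟨d, hd⟩ := hy
    exact ⟨c + d, by rw [LinearMap.add_apply, hc, hd, add_smul]⟩
  | mul x y _ _ hx hy =>
    obtain ⟨c, hc⟩ := hx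
    obtain ⟨d, hd⟩ := hy
    exact ⟨d * c, by rw [Module.End.mul_apply, hd, map_smul, hc, mul_smul]⟩

/-- The eigencharacter of a normalised eigenform. -/
def eigenChar [NeZero N] (f : CuspForm (Gamma0 N) 2) (hf : f.IsNormalizedEigenform) (S : Set ℕ) :
    CuspForm.heckeAlgebra N 2 S →+* ℂ where
  toFun t := qCoeff ((t : Module.End ℂ (S2 N)) f) 1
  map_one' := by simp [hf.qCoeff_one]
  map_zero' := qCoeff_form_zero 1
  map_add' s t := qCoeff_add ((s : Module.End ℂ (S2 N)) f) ((t : Module.End ℂ (S2 N)) f) 1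
  map_mul' s t := by
    rw [Subalgebra.coe_mul, Module.End.mul_apply]
    conv_lhs => rw [hecke_apply_eigenform hf t, map_smul, qCoeff_smul, mul_comm]

variable [NeZero N] {S : Set ℕ}

theorem apply_eq_eigenChar_smul (hf : f.IsNormalizedEigenform)
    (t : CuspForm.heckeAlgebra N 2 S) :
    (t : Module.End ℂ (S2 N)) f = eigenChar f hf S t • f :=
  hecke_apply_eigenform hf t

theorem eigenChar_T (hf : f.IsNormalizedEigenform) {ℓ : ℕ} (hℓ : ℓ.Prime) (hℓN : ¬ ℓ ∣ N)
    (hℓS : ℓ ∉ S) :
    eigenChar f hf S (CuspForm.heckeAlgebra.T hℓ hℓN hℓS) = qCoeff f ℓ := by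
  change qCoeff (CuspForm.heckeTLin 2 hℓ hℓN f) 1 = _
  rw [heckeTLin_eigenform hf hℓ hℓN, qCoeff_smul, hf.qCoeff_one, mul_one]

theorem eigenChar_U (hf : f.IsNormalizedEigenform) {q : ℕ} (hq : q.Prime) (hqN : q ∣ N)
    (hqS : q ∉ S) :
    eigenChar f hf S (CuspForm.heckeAlgebra.U hq hqN hqS) = qCoeff f q := by
  change qCoeff (CuspForm.heckeULin 2 hqN f) 1 = _
  rw [heckeULin_eigenform hf hq hqN, qCoeff_smul, hf.qCoeff_one, mul_one]

end Eigenform

section Eigenvector

variable [NeZero N] {v : CuspForm (Gamma0 N) 2}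
  {a : ℕ → ℂ}
  (hT : ∀ (p : ℕ) (hp : p.Prime) (hpN : ¬ p ∣ N), CuspForm.heckeTLin 2 hp hpN v = a p • v)
  (hU : ∀ (p : ℕ) (_ : p.Prime) (hpN : p ∣ N), CuspForm.heckeULin 2 hpN v = a p • v)

include hT hU

private lemma recursion {p : ℕ} (hp : p.Prime) (n : ℕ) :
    qCoeff v (n * p) + (if p ∣ N then 0 else if p ∣ n then (p : ℂ) * qCoeff v (n / p) else 0)
      = a p * qCoeff v n := by
  by_cases hpN : p ∣ N
  · rw [if_pos hpN, add_zero, ← qCoeff_heckeULin (k := 2) hp.ne_zero hpN, hU p hp hpN, qCoeff_smul]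
  · rw [if_neg hpN, ← qCoeff_heckeTLin_two hp hpN, hT p hp hpN, qCoeff_smul]

private lemma qCoeff_eq_zero_of_one (h1 : qCoeff v 1 = 0) (n : ℕ) : qCoeff v n = 0 := by
  induction n using Nat.strong_induction_on with
  | _ n ih =>
    rcases eq_or_ne n 0 with rfl | hn0
    · exact qCoeff_index_zero v
    rcases eq_or_ne n 1 with rfl | hn1
    · exact h1
    obtain ⟨p, hp, hpn⟩ := Nat.exists_prime_and_dvd hn1
    obtain ⟨m, rfl⟩ := hpn
    have hm0 : 0 < m := Nat.pos_of_ne_zero fun h => hn0 (by simp [h])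
    have hm : m < p * m := lt_mul_of_one_lt_left hm0 hp.one_lt
    have h := recursion hT hU hp m
    rw [ih m hm, mul_zero, ih (m / p) (lt_of_le_of_lt (Nat.div_le_self _ _) hm), mul_zero,
      ite_self, ite_self, add_zero, mul_comm] at h
    exact h

lemma qCoeff_one_ne_zero (hv : v ≠ 0) : qCoeff v 1 ≠ 0 := fun h =>
  hv (eq_zero_of_forall_qCoeff_eq_zero v (qCoeff_eq_zero_of_one hT hU h))

private lemma qCoeff_prime_of_one (h1 : qCoeff v 1 = 1) {p : ℕ} (hp : p.Prime) :
    qCoeff v p = a p := by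
  have h := recursion hT hU hp 1
  rwa [h1, mul_one, one_mul, if_neg hp.not_dvd_one, ite_self, add_zero] at h

private lemma qCoeff_mul_of_coprime_of_one (h1 : qCoeff v 1 = 1) (m n : ℕ) (h : m.Coprime n) :
    qCoeff v (m * n) = qCoeff v m * qCoeff v n := by
  induction m using Nat.strong_induction_on generalizing n with
  | _ m ih =>
    rcases eq_or_ne m 0 with rfl | hm0
    · simp [qCoeff_index_zero]
    rcases eq_or_ne m 1 with rfl | hm1
    · simp [h1]
    obtain ⟨p, hp, hpm⟩ := Nat.exists_prime_and_dvd hm1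
    obtain ⟨k, rfl⟩ := hpm
    have hk0 : 0 < k := Nat.pos_of_ne_zero fun h' => hm0 (by simp [h'])
    have hk : k < p * k := lt_mul_of_one_lt_left hk0 hp.one_lt
    have hkn : k.Coprime n := h.coprime_mul_left
    have hpn : ¬ p ∣ n := fun hd =>
      hp.ne_one (Nat.dvd_one.mp (h ▸ Nat.dvd_gcd (dvd_mul_right p k) hd))
    have e1 := recursion hT hU hp (k * n)
    have e2 := recursion hT hU hp k
    rw [ih k hk n hkn] at e1
    rw [show p * k * n = k * n * p by ring, show p * k = k * p by ring]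
    by_cases hd : p ∣ N
    · rw [if_pos hd] at e1 e2
      linear_combination e1 - qCoeff v n * e2
    rw [if_neg hd] at e1 e2
    by_cases hdk : p ∣ k
    · obtain ⟨l, rfl⟩ := hdk
      rw [if_pos (dvd_mul_right p l), Nat.mul_div_cancel_left _ hp.pos] at e2
      rw [if_pos ((dvd_mul_right p l).mul_right n), mul_assoc p l n,
        Nat.mul_div_cancel_left _ hp.pos,
        ih l (lt_of_le_of_lt (Nat.le_mul_of_pos_left l hp.pos) hk) n
          hkn.coprime_mul_left, ← mul_assoc] at e1
      linear_combination e1 - qCoeff v n * e2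
    · rw [if_neg hdk] at e2
      rw [if_neg (fun hd' => (hp.dvd_mul.mp hd').elim hdk hpn)] at e1
      linear_combination e1 - qCoeff v n * e2

/-- A simultaneous eigenvector with first coefficient one is a normalised eigenform. -/
theorem isNormalizedEigenform_of_eigen (h1 : qCoeff v 1 = 1) : v.IsNormalizedEigenform := by
  refine ⟨h1, qCoeff_mul_of_coprime_of_one hT hU h1, fun p r hp hpN => ?_, fun p r hp hpN => ?_⟩
  · have h := recursion hT hU hp (p ^ (r + 1))
    rw [if_neg hpN, if_pos (dvd_pow_self p (by omega)), ← qCoeff_prime_of_one hT hU h1 hp,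
      show p ^ (r + 1) / p = p ^ r by rw [pow_succ', Nat.mul_div_cancel_left _ hp.pos],
      ← pow_succ] at h
    linear_combination h
  · have h := recursion hT hU hp (p ^ (r + 1))
    rw [if_pos hpN, ← qCoeff_prime_of_one hT hU h1 hp, ← pow_succ, add_zero] at h
    exact h

end Eigenvector

/-- Two normalised eigenforms with the same coefficients at all primes are equal. -/
theorem eigenform_ext [NeZero N] {f g : CuspForm (Gamma0 N) 2} (hf : f.IsNormalizedEigenform)
    (hg : g.IsNormalizedEigenform) (h : ∀ p : ℕ, p.Prime → qCoeff f p = qCoeff g p) : f = g := by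
  rw [← sub_eq_zero]
  by_contra hne
  refine qCoeff_one_ne_zero (v := f - g) (a := qCoeff f) ?_ ?_ hne ?_
  · intro p hp hpN
    rw [map_sub, heckeTLin_eigenform hf hp hpN, heckeTLin_eigenform hg hp hpN, ← h p hp, smul_sub]
  · intro p hp hpN
    rw [map_sub, heckeULin_eigenform hf hp hpN, heckeULin_eigenform hg hp hpN, ← h p hp, smul_sub]
  · rw [qCoeff_sub, hf.qCoeff_one, hg.qCoeff_one, sub_self]

section Existence

variable [NeZero N]

lemma intLattice_le_intCoeff (f : S2 N) (hf : f ∈ CuspForm.intLattice N 2) (n : ℕ) :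
    ∃ m : ℤ, qCoeff f n = m := by
  induction hf using Submodule.span_induction with
  | mem x hx => exact hx n
  | zero => exact ⟨0, (qCoeff_form_zero n).trans Int.cast_zero.symm⟩
  | add x y _ _ hx hy =>
    obtain ⟨a, ha⟩ := hx
    obtain ⟨b, hb⟩ := hy
    exact ⟨a + b, by rw [qCoeff_add, ha, hb, Int.cast_add]⟩
  | smul r x _ hx =>
    obtain ⟨a, ha⟩ := hx
    exact ⟨r * a, by rw [qCoeff_zsmul, ha, Int.cast_mul]⟩

lemma qCoeff_hecke_int {S : Set ℕ} (t : CuspForm.heckeAlgebra N 2 S) {g : S2 N}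
    (hg : g ∈ CuspForm.intLattice N 2) (n : ℕ) :
    ∃ m : ℤ, qCoeff ((t : Module.End ℂ (S2 N)) g) n = m :=
  intLattice_le_intCoeff _ (CuspForm.mem_intLattice_of_mem_heckeAlgebra one_le_two t.2 hg) n

/-- A nonzero cusp form `v` yields a normalised eigenform of level `N` having the eigenvalue `c`
for every Hecke operator `t` with `t v = c • v`. -/
theorem exists_eigenform_of_eigenvector (v : S2 N) (hv : v ≠ 0) :
    ∃ (f : CuspForm (Gamma0 N) 2) (hf : f.IsNormalizedEigenform),
      ∀ (t : CuspForm.heckeAlgebra N 2 ∅) (c : ℂ),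
        (t : Module.End ℂ (S2 N)) v = c • v → eigenChar f hf ∅ t = c := by
  haveI := finiteDimensional_cuspForm N 2
  let A : CuspForm.heckeAlgebra N 2 ∅ → Module.End ℂ (S2 N) := fun t => (t : Module.End ℂ (S2 N))
  have hcomm : ∀ s t, Commute (A s) (A t) := fun s t =>
    (Commute.all s t).map (CuspForm.heckeAlgebra N 2 ∅).val
  let E : Submodule ℂ (S2 N) :=
    ⨅ (t : CuspForm.heckeAlgebra N 2 ∅) (c : ℂ) (_ : A t v = c • v), (A t).eigenspace c
  have hE : ∀ x, x ∈ E ↔ ∀ (t : CuspForm.heckeAlgebra N 2 ∅) (c : ℂ),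
      A t v = c • v → A t x = c • x := fun x => by
    simp [E, Submodule.mem_iInf]
  obtain ⟨u, huE, hu0, μ, hμ⟩ := exists_joint_eigen_mem A hcomm E
    ((Submodule.ne_bot_iff E).mpr ⟨v, (hE v).mpr fun t c h => h, hv⟩)
    (fun s x hx => (hE _).mpr fun t c h => by
      calc A t (A s x) = A s (A t x) := LinearMap.congr_fun (hcomm t s).eq x
        _ = c • A s x := by rw [(hE x).mp hx t c h, map_smul])
  let a : ℕ → ℂ := fun p =>
    if hp : p.Prime then
      if hpN : p ∣ N then μ (CuspForm.heckeAlgebra.U hp hpN (Set.notMem_empty p))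
      else μ (CuspForm.heckeAlgebra.T hp hpN (Set.notMem_empty p))
    else 0
  have hT : ∀ (p : ℕ) (hp : p.Prime) (hpN : ¬ p ∣ N),
      CuspForm.heckeTLin 2 hp hpN u = a p • u := fun p hp hpN => by
    simpa [a, A, hp, hpN] using hμ (CuspForm.heckeAlgebra.T hp hpN (Set.notMem_empty p))
  have hU : ∀ (p : ℕ) (_ : p.Prime) (hpN : p ∣ N),
      CuspForm.heckeULin 2 hpN u = a p • u := fun p hp hpN => by
    simpa [a, A, hp, hpN] using hμ (CuspForm.heckeAlgebra.U hp hpN (Set.notMem_empty p))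
  have h1 := qCoeff_one_ne_zero hT hU hu0
  set f : S2 N := (qCoeff u 1)⁻¹ • u with hfdef
  have hf : f.IsNormalizedEigenform := isNormalizedEigenform_of_eigen (a := a)
    (fun p hp hpN => by rw [hfdef, map_smul, hT, smul_comm])
    (fun p hp hpN => by rw [hfdef, map_smul, hU p hp hpN, smul_comm])
    (by rw [hfdef, qCoeff_smul, inv_mul_cancel₀ h1])
  refine ⟨f, hf, fun t c h => smul_left_injective ℂ (eigenform_ne_zero hf) ?_⟩
  change eigenChar f hf ∅ t • f = c • f
  rw [← apply_eq_eigenChar_smul hf t, hfdef, map_smul, (hE u).mp huE t c h, smul_comm]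

/-- From a nonzero common eigenvector of the `T_ℓ`, `ℓ ∤ N`, `ℓ ∉ S`, to a normalised eigenform
with the same eigenvalues. -/
theorem exists_eigenform_of_eigen_T {S : Set ℕ} (v : S2 N) (hv : v ≠ 0) (a : ℕ → ℂ)
    (hT : ∀ (p : ℕ) (hp : p.Prime) (hpN : ¬ p ∣ N), p ∉ S →
      CuspForm.heckeTLin 2 hp hpN v = a p • v) :
    ∃ f : CuspForm (Gamma0 N) 2, f.IsNormalizedEigenform ∧
      ∀ p : ℕ, p.Prime → ¬ p ∣ N → p ∉ S → qCoeff f p = a p := by
  obtain ⟨f, hf, h⟩ := exists_eigenform_of_eigenvector v hv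
  exact ⟨f, hf, fun p hp hpN hpS => by
    rw [← eigenChar_T hf hp hpN (Set.notMem_empty p)]
    exact h _ _ (hT p hp hpN hpS)⟩

/-- Every character of `heckeAlgebra N 2 S` is realised by a normalised eigenform of level `N`. -/
theorem exists_eigenform_of_ringHom (H : CuspForm.HasIntegralStructure N 2) {S : Set ℕ}
    (χ : CuspForm.heckeAlgebra N 2 S →+* ℂ) :
    ∃ (f : CuspForm (Gamma0 N) 2) (hf : f.IsNormalizedEigenform), eigenChar f hf S = χ := by
  haveI := finiteDimensional_cuspForm N 2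
  obtain ⟨w, hw0, hw⟩ := exists_eigen_of_integral (W := S2 N)
    (CuspForm.heckeAlgebra N 2 S).val.toRingHom χ (CuspForm.intLattice N 2) H (qCoeffLin N 2)
    eq_zero_of_forall_qCoeff_eq_zero (fun t g hg n => qCoeff_hecke_int t hg n)
    (fun t ht => by rw [show t = 0 from Subtype.ext ht, map_zero])
  obtain ⟨f, hf, hfv⟩ := exists_eigenform_of_eigenvector w hw0
  refine ⟨f, hf, RingHom.ext fun t => ?_⟩
  exact hfv ⟨t, CuspForm.heckeAlgebra_mono (Set.empty_subset S) t.2⟩ (χ t) (hw t)

/-- Coefficient form of `exists_eigenform_of_ringHom`. -/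
theorem exists_eigenform_qCoeff_of_ringHom (H : CuspForm.HasIntegralStructure N 2) {S : Set ℕ}
    (χ : CuspForm.heckeAlgebra N 2 S →+* ℂ) :
    ∃ f : CuspForm (Gamma0 N) 2, f.IsNormalizedEigenform ∧
      (∀ (ℓ : ℕ) (hℓ : ℓ.Prime) (hℓN : ¬ ℓ ∣ N) (hℓS : ℓ ∉ S),
        qCoeff f ℓ = χ (CuspForm.heckeAlgebra.T hℓ hℓN hℓS)) ∧
      (∀ (q : ℕ) (hq : q.Prime) (hqN : q ∣ N) (hqS : q ∉ S),
        qCoeff f q = χ (CuspForm.heckeAlgebra.U hq hqN hqS)) := by
  obtain ⟨f, hf, rfl⟩ := exists_eigenform_of_ringHom H χ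
  exact ⟨f, hf, fun ℓ hℓ hℓN hℓS => (eigenChar_T hf hℓ hℓN hℓS).symm,
    fun q hq hqN hqS => (eigenChar_U hf hq hqN hqS).symm⟩

/-- Uniqueness: an eigenform is determined by its character on the full Hecke algebra. -/
theorem eigenChar_injective {f g : CuspForm (Gamma0 N) 2} (hf : f.IsNormalizedEigenform)
    (hg : g.IsNormalizedEigenform) (h : eigenChar f hf ∅ = eigenChar g hg ∅) : f = g :=
  eigenform_ext hf hg fun p hp => by
    by_cases hpN : p ∣ N
    · rw [← eigenChar_U hf hp hpN (Set.notMem_empty p), h, eigenChar_U hg hp hpN]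
    · rw [← eigenChar_T hf hp hpN (Set.notMem_empty p), h, eigenChar_T hg hp hpN]

/-- Given the integral structure, the Hecke algebra is a finite `ℤ`-module. -/
theorem heckeAlgebra_moduleFinite (H : CuspForm.HasIntegralStructure N 2) (S : Set ℕ) :
    Module.Finite ℤ (CuspForm.heckeAlgebra N 2 S) := by
  haveI := CuspForm.intLattice.moduleFinite N
  haveI := CuspForm.intLattice.moduleFree N
  refine Module.Finite.of_injective (CuspForm.latticeActionHom N S).toIntAlgHom.toLinearMap ?_
  intro s t hst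
  refine Subtype.ext (LinearMap.ext_on H fun g hg => ?_)
  exact congrArg Subtype.val (LinearMap.congr_fun hst ⟨g, hg⟩)

/-- Given the integral structure, the values of an eigencharacter are algebraic integers. -/
theorem isIntegral_eigenChar (H : CuspForm.HasIntegralStructure N 2) {f : CuspForm (Gamma0 N) 2}
    (hf : f.IsNormalizedEigenform) {S : Set ℕ} (t : CuspForm.heckeAlgebra N 2 S) :
    IsIntegral ℤ (eigenChar f hf S t) := by
  haveI := heckeAlgebra_moduleFinite H S
  exact map_isIntegral_int (eigenChar f hf S) (Algebra.IsIntegral.isIntegral t)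

/-- Given the integral structure, prime coefficients of eigenforms are algebraic integers. -/
theorem isIntegral_qCoeff_prime (H : CuspForm.HasIntegralStructure N 2)
    {f : CuspForm (Gamma0 N) 2} (hf : f.IsNormalizedEigenform) {p : ℕ} (hp : p.Prime) :
    IsIntegral ℤ (qCoeff f p) := by
  by_cases hpN : p ∣ N
  · rw [← eigenChar_U hf hp hpN (Set.notMem_empty p)]; exact isIntegral_eigenChar H hf _
  · rw [← eigenChar_T hf hp hpN (Set.notMem_empty p)]; exact isIntegral_eigenChar H hf _

/-- Given the integral structure, all coefficients of eigenforms are algebraic integers. -/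
theorem isIntegral_qCoeff (H : CuspForm.HasIntegralStructure N 2) {f : CuspForm (Gamma0 N) 2}
    (hf : f.IsNormalizedEigenform) (n : ℕ) : IsIntegral ℤ (qCoeff f n) := by
  induction n using Nat.recOnPrimeCoprime with
  | zero => rw [qCoeff_index_zero]; exact isIntegral_zero
  | prime_pow p m hp =>
    induction m using Nat.strong_induction_on with
    | _ m ih =>
      rcases m with _ | _ | r
      · rw [pow_zero, hf.qCoeff_one]; exact isIntegral_one
      · rw [pow_one]; exact isIntegral_qCoeff_prime H hf hp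
      · have hp' := isIntegral_qCoeff_prime H hf hp
        by_cases hpN : p ∣ N
        · rw [hf.qCoeff_prime_pow_of_dvd p r hp hpN]
          exact hp'.mul (ih _ (by omega))
        · rw [hf.qCoeff_prime_pow_of_not_dvd p r hp hpN]
          exact (hp'.mul (ih _ (by omega))).sub
            ((map_natCast (algebraMap ℤ ℂ) p ▸ isIntegral_algebraMap).mul (ih _ (by omega)))
  | coprime a b _ _ hab iha ihb =>
    rw [hf.qCoeff_mul_of_coprime a b hab]; exact iha.mul ihb

end Existence

end Fermat.Agent.Eigen
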