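import Mathlib

/-!
# Lifting characters of finite torsion-free rings over `ℤ` (Deligne–Serre)

A maximal ideal of a commutative ring `T` which is finite and torsion-free over `ℤ` is the
pullback of a maximal ideal of the ring of algebraic integers in `ℂ` along a character of `T`.
-/

set_option autoImplicit false

noncomputable section

namespace Fermat.Agent.Eigen

/-- Deligne–Serre lifting: a maximal (indeed any prime) ideal of a finite torsion-free ring over
`ℤ` contains the kernel of a character into the algebraic integers. -/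
theorem exists_char_ker_le {T : Type*} [CommRing T] [Module.Finite ℤ T] [IsAddTorsionFree T]
    (M : Ideal T) [M.IsPrime] :
    ∃ χ : T →+* integralClosure ℤ ℂ, RingHom.ker χ ≤ M := by
  obtain ⟨P, hP, hPM⟩ := Ideal.exists_minimalPrimes_le (bot_le : (⊥ : Ideal T) ≤ M)
  haveI : P.IsPrime := hP.isPrime
  have hinj : Function.Injective (algebraMap ℤ (T ⧸ P)) := by
    rw [injective_iff_map_eq_zero]
    intro m hm
    by_contra hm0
    have h1 : (m : T) ∈ P := by
      rwa [← Ideal.Quotient.eq_zero_iff_mem, map_intCast, ← eq_intCast (algebraMap ℤ (T ⧸ P))]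
    refine Set.disjoint_left.mp (Ideal.disjoint_nonZeroDivisors_of_mem_minimalPrimes hP) h1 ?_
    refine mem_nonZeroDivisors_iff_right.mpr fun x hx => ?_
    have h2 : m • x = 0 := by rw [zsmul_eq_mul, mul_comm]; exact hx
    exact (smul_eq_zero_iff_right hm0).mp h2
  haveI : Module.IsTorsionFree ℤ (T ⧸ P) := by
    haveI := (faithfulSMul_iff_algebraMap_injective ℤ (T ⧸ P)).mpr hinj
    infer_instance
  haveI : Algebra.IsAlgebraic ℤ (T ⧸ P) := Algebra.IsIntegral.isAlgebraic
  let g : (T ⧸ P) →ₐ[ℤ] ℂ := IsAlgClosed.lift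
  have hg : Function.Injective g := by
    have hker : RingHom.ker g.toRingHom = ⊥ :=
      Ideal.eq_bot_of_comap_eq_bot (R := ℤ) <| by
        ext m
        simp only [Ideal.mem_comap, RingHom.mem_ker, Submodule.mem_bot]
        change g (algebraMap ℤ (T ⧸ P) m) = 0 ↔ m = 0
        rw [AlgHom.commutes, eq_intCast, Int.cast_eq_zero]
    exact (RingHom.injective_iff_ker_eq_bot g.toRingHom).mpr hker
  let φ : T →+* ℂ := g.toRingHom.comp (Ideal.Quotient.mk P)
  refine ⟨φ.codRestrict (integralClosure ℤ ℂ)
    (fun t => map_isIntegral_int φ (Algebra.IsIntegral.isIntegral t)), fun t ht => hPM ?_⟩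
  have h0 : g (Ideal.Quotient.mk P t) = 0 := congrArg Subtype.val ht
  exact Ideal.Quotient.eq_zero_iff_mem.mp (hg (h0.trans (map_zero g).symm))

/-- Deligne–Serre lifting, with a maximal ideal of the algebraic integers over `M`. -/
theorem exists_char_lift_maximal {T : Type*} [CommRing T] [Module.Finite ℤ T]
    [IsAddTorsionFree T] (M : Ideal T) [M.IsMaximal] :
    ∃ (χ : T →+* integralClosure ℤ ℂ) (𝔪 : Ideal (integralClosure ℤ ℂ)),
      𝔪.IsMaximal ∧ 𝔪.comap χ = M := by
  obtain ⟨χ, hχ⟩ := exists_char_ker_le M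
  letI : Algebra T (integralClosure ℤ ℂ) := χ.toAlgebra
  haveI : IsScalarTower ℤ T (integralClosure ℤ ℂ) :=
    IsScalarTower.of_algebraMap_eq' (RingHom.ext_int _ _)
  haveI : Algebra.IsIntegral T (integralClosure ℤ ℂ) := Algebra.IsIntegral.tower_top (R := ℤ)
  obtain ⟨Q, hQ, hQM⟩ := Ideal.exists_ideal_over_maximal_of_isIntegral
    (S := integralClosure ℤ ℂ) M hχ
  exact ⟨χ, Q, hQ, hQM⟩

end Fermat.Agent.Eigen
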