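import Fermat.Agent.Eigen.EigenHom
import Fermat.Agent.Eigen.Lifting

/-!
# A mod-`p` eigen q-expansion lifts to a congruent eigenform
-/

set_option autoImplicit false

noncomputable section

open CongruenceSubgroup ModularFormClass

namespace Fermat.Agent.Eigen

variable {N : ℕ} [NeZero N]

/-- Deligne–Serre: an integral form which is an eigenvector modulo `m` of all Hecke operators,
with first coefficient prime to `m`, has eigenvalues congruent to those of a genuine eigenform. -/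
theorem exists_eigenform_congruent (H : CuspForm.HasIntegralStructure N 2) (m : ℕ)
    (g : S2 N) (e : ℕ → ℤ) (hg : g ∈ CuspForm.intLattice N 2)
    (hg1 : ∀ z : ℤ, qCoeff g 1 ≠ (m : ℂ) * z)
    (hT : ∀ (p : ℕ) (hp : p.Prime) (hpN : ¬ p ∣ N) (n : ℕ),
      ∃ z : ℤ, qCoeff (CuspForm.heckeTLin 2 hp hpN g) n - e p * qCoeff g n = (m : ℂ) * z)
    (hU : ∀ (p : ℕ) (_ : p.Prime) (hpN : p ∣ N) (n : ℕ),
      ∃ z : ℤ, qCoeff (CuspForm.heckeULin 2 hpN g) n - e p * qCoeff g n = (m : ℂ) * z) :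
    ∃ (f : CuspForm (Gamma0 N) 2) (_ : f.IsNormalizedEigenform)
      (𝔪 : Ideal (integralClosure ℤ ℂ)), 𝔪.IsMaximal ∧ (m : integralClosure ℤ ℂ) ∈ 𝔪 ∧
      ∀ p : ℕ, p.Prime → ∃ c : integralClosure ℤ ℂ, (c : ℂ) = qCoeff f p ∧
          c - (e p : integralClosure ℤ ℂ) ∈ 𝔪 := by
  haveI := heckeAlgebra_moduleFinite H (∅ : Set ℕ)
  let T := CuspForm.heckeAlgebra N 2 ∅
  let Div : S2 N → Prop := fun h => h ∈ CuspForm.intLattice N 2 ∧
    ∀ n, ∃ z : ℤ, qCoeff h n = (m : ℂ) * z
  -- stability of the forms divisible by `m`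
  have hDiv : ∀ (t : T) (h : S2 N), Div h → Div ((t : Module.End ℂ (S2 N)) h) := by
    rintro ⟨t, ht⟩ h ⟨hhL, hh⟩
    refine ⟨CuspForm.mem_intLattice_of_mem_heckeAlgebra one_le_two ht hhL, ?_⟩
    induction ht using Algebra.adjoin_induction generalizing h with
    | mem x hx =>
      intro n
      rcases hx with ⟨ℓ, hℓ, hℓN, -, rfl⟩ | ⟨q, hqN, hq, -, rfl⟩
      · obtain ⟨z₁, h₁⟩ := hh (n * ℓ)
        obtain ⟨z₂, h₂⟩ := hh (n / ℓ)
        dsimp only
        rw [qCoeff_heckeTLin_two, h₁, h₂]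
        by_cases hd : ℓ ∣ n
        · exact ⟨z₁ + ℓ * z₂, by rw [if_pos hd]; push_cast; ring⟩
        · exact ⟨z₁, by rw [if_neg hd, add_zero]⟩
      · obtain ⟨z, hz⟩ := hh (n * q)
        exact ⟨z, (qCoeff_heckeULin hq.ne_zero hqN h n).trans hz⟩
    | algebraMap r =>
      intro n
      obtain ⟨z, hz⟩ := hh n
      refine ⟨r * z, ?_⟩
      dsimp only
      rw [Module.algebraMap_end_apply, qCoeff_zsmul, hz]; push_cast; ring
    | add x y hx' hy' hx hy =>
      intro n
      obtain ⟨z, hz⟩ := hx h hhL hh n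
      obtain ⟨w, hw⟩ := hy h hhL hh n
      exact ⟨z + w, (qCoeff_add (x h) (y h) n).trans (by rw [hz, hw]; push_cast; ring)⟩
    | mul x y hx' hy' hx hy =>
      intro n
      exact hx (y h) (CuspForm.mem_intLattice_of_mem_heckeAlgebra one_le_two hy' hhL)
        (hy h hhL hh) n
  have hadd : ∀ a b : S2 N, Div a → Div b → Div (a + b) := fun a b ha hb =>
    ⟨Submodule.add_mem _ ha.1 hb.1, fun n => by
      obtain ⟨z, hz⟩ := ha.2 n
      obtain ⟨w, hw⟩ := hb.2 n
      exact ⟨z + w, by rw [qCoeff_add, hz, hw]; push_cast; ring⟩⟩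
  have hzero : Div 0 :=
    ⟨Submodule.zero_mem _, fun n => ⟨0, by rw [qCoeff_form_zero, Int.cast_zero, mul_zero]⟩⟩
  let M : Ideal T :=
    { carrier := {t | Div ((t : Module.End ℂ (S2 N)) g)}
      add_mem' := fun ha hb => hadd _ _ ha hb
      zero_mem' := hzero
      smul_mem' := fun c _ hx => hDiv c _ hx }
  have hM : M ≠ ⊤ := fun h => by
    have h1 : (1 : T) ∈ M := h ▸ Submodule.mem_top
    obtain ⟨z, hz⟩ := h1.2 1
    exact hg1 z hz
  obtain ⟨M', hM', hMM'⟩ := Ideal.exists_le_maximal M hM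
  obtain ⟨χ, 𝔪, h𝔪, hcomap⟩ := exists_char_lift_maximal M'
  obtain ⟨f, hf, hfχ⟩ := exists_eigenform_of_ringHom H
    ((integralClosure ℤ ℂ).val.toRingHom.comp χ)
  have hmem : ∀ t : T, t ∈ M → χ t ∈ 𝔪 := fun t ht => by
    have h : t ∈ 𝔪.comap χ := hcomap.symm ▸ hMM' ht
    exact h
  refine ⟨f, hf, 𝔪, h𝔪, ?_, fun p hp => ?_⟩
  · have h : ((m : ℤ) : T) ∈ M := by
      refine ⟨CuspForm.mem_intLattice_of_mem_heckeAlgebra one_le_two (((m : ℤ) : T)).2 hg,
        fun n => ?_⟩
      obtain ⟨z, hz⟩ := intLattice_le_intCoeff g hg n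
      exact ⟨z, by
        rw [← eq_intCast (algebraMap ℤ T) (m : ℤ), Subalgebra.coe_algebraMap,
          Module.algebraMap_end_apply, qCoeff_zsmul, hz, Int.cast_natCast]⟩
    have h' := hmem _ h
    rwa [map_intCast, Int.cast_natCast] at h'
  · have key : ∀ t : T, ((t : Module.End ℂ (S2 N)) g ∈ CuspForm.intLattice N 2) →
        eigenChar f hf ∅ t = qCoeff f p →
        (∀ n, ∃ z : ℤ, qCoeff ((t : Module.End ℂ (S2 N)) g) n - e p * qCoeff g n = (m : ℂ) * z) →
        ∃ c : integralClosure ℤ ℂ, (c : ℂ) = qCoeff f p ∧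
          c - (e p : integralClosure ℤ ℂ) ∈ 𝔪 := fun t htL htp htc => by
      refine ⟨χ t, ?_, ?_⟩
      · rw [← htp, hfχ]; rfl
      · have h : t - algebraMap ℤ T (e p) ∈ M := by
          have hev : ((t - algebraMap ℤ T (e p) : T) : Module.End ℂ (S2 N)) g
              = (t : Module.End ℂ (S2 N)) g - e p • g := by
            rw [Subalgebra.coe_sub, LinearMap.sub_apply, Subalgebra.coe_algebraMap,
              Module.algebraMap_end_apply]
          refine ⟨?_, fun n => ?_⟩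
          · rw [hev]
            exact Submodule.sub_mem _ htL (Submodule.smul_mem _ _ hg)
          · obtain ⟨z, hz⟩ := htc n
            exact ⟨z, by rw [hev, qCoeff_sub, qCoeff_zsmul]; exact hz⟩
        have h' := hmem _ h
        rwa [map_sub, eq_intCast (algebraMap ℤ T), map_intCast] at h'
    by_cases hpN : p ∣ N
    · exact key _ (CuspForm.mem_intLattice_of_mem_heckeAlgebra one_le_two
        (CuspForm.heckeAlgebra.U hp hpN (Set.notMem_empty p)).2 hg)
        (eigenChar_U hf hp hpN (Set.notMem_empty p)) (hU p hp hpN)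
    · exact key _ (CuspForm.mem_intLattice_of_mem_heckeAlgebra one_le_two
        (CuspForm.heckeAlgebra.T hp hpN (Set.notMem_empty p)).2 hg)
        (eigenChar_T hf hp hpN (Set.notMem_empty p)) (hT p hp hpN)

end Fermat.Agent.Eigen
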