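import Fermat.Prelude.Def_CuspForm_HeckeAlgebra
import Fermat.Prelude.Def_FLTPrelim_Modularity
import Fermat.Prelude.Thm_ModularFormClass_qCoeff_heckeT
import Fermat.Prelude.Thm_ModularFormClass_qCoeff_heckeU
import Fermat.Prelude.Thm_ModularForm_sturm_bound_Gamma0
import Fermat.Prelude.Thm_CongruenceSubgroup_one_mem_strictPeriods_Gamma0
import Mathlib

/-!
# q-coefficients of cusp forms on `Γ₀(N)`

The n-th coefficient as a linear map, the coefficient formulas for the Hecke operators,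
extensionality, and finite dimensionality of the space of cusp forms.
-/

set_option autoImplicit false

noncomputable section

open CongruenceSubgroup ModularFormClass UpperHalfPlane

namespace Fermat.Agent.Eigen

variable {N : ℕ} {k : ℤ}

lemma one_mem_periods (N : ℕ) :
    (1 : ℝ) ∈ (Gamma0 N : Subgroup (GL (Fin 2) ℝ)).strictPeriods :=
  CongruenceSubgroup.one_mem_strictPeriods_Gamma0 N

lemma qCoeff_add (f g : CuspForm (Gamma0 N) k) (n : ℕ) :
    qCoeff (f + g : CuspForm (Gamma0 N) k) n = qCoeff f n + qCoeff g n := by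
  rw [qCoeff, CuspForm.coe_add, ModularForm.qExpansion_add one_pos (one_mem_periods N) f g,
    map_add]
  rfl

lemma qCoeff_smul (c : ℂ) (f : CuspForm (Gamma0 N) k) (n : ℕ) :
    qCoeff (c • f : CuspForm (Gamma0 N) k) n = c * qCoeff f n := by
  rw [qCoeff, CuspForm.IsGLPos.coe_smul, ModularForm.qExpansion_smul one_pos (one_mem_periods N) c f,
    PowerSeries.coeff_smul, smul_eq_mul]
  rfl

variable (N k) in
/-- The n-th q-coefficient, as a linear functional on cusp forms. -/
def qCoeffLin (n : ℕ) : CuspForm (Gamma0 N) k →ₗ[ℂ] ℂ where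
  toFun f := qCoeff f n
  map_add' f g := qCoeff_add f g n
  map_smul' c f := qCoeff_smul c f n

@[simp] lemma qCoeffLin_apply (n : ℕ) (f : CuspForm (Gamma0 N) k) :
    qCoeffLin N k n f = qCoeff f n := rfl

lemma qCoeff_sub (f g : CuspForm (Gamma0 N) k) (n : ℕ) :
    qCoeff (f - g : CuspForm (Gamma0 N) k) n = qCoeff f n - qCoeff g n :=
  map_sub (qCoeffLin N k n) f g

lemma qCoeff_form_zero (n : ℕ) :
    qCoeff (0 : CuspForm (Gamma0 N) k) n = 0 :=
  map_zero (qCoeffLin N k n)

lemma qCoeff_zsmul (m : ℤ) (f : CuspForm (Gamma0 N) k) (n : ℕ) :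
    qCoeff (m • f : CuspForm (Gamma0 N) k) n = m * qCoeff f n := by
  rw [← qCoeffLin_apply, map_zsmul, qCoeffLin_apply, zsmul_eq_mul]

/-- The constant term of a cusp form vanishes. -/
lemma qCoeff_index_zero (f : CuspForm (Gamma0 N) k) : qCoeff f 0 = 0 :=
  CuspFormClass.qExpansion_coeff_zero f one_pos (one_mem_periods N)

lemma qCoeff_heckeTLin {p : ℕ} (hp : p.Prime) (hpN : ¬ p ∣ N) (f : CuspForm (Gamma0 N) k)
    (n : ℕ) : qCoeff (CuspForm.heckeTLin k hp hpN f) n
      = qCoeff f (n * p) + if p ∣ n then (p : ℂ) ^ (k - 1) * qCoeff f (n / p) else 0 := by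
  rw [CuspForm.coe_heckeTLin_apply,
    ModularFormClass.qCoeff_heckeT f (one_mem_periods N) hp.ne_zero n]
  rfl

lemma qCoeff_heckeTLin_two {p : ℕ} (hp : p.Prime) (hpN : ¬ p ∣ N) (f : CuspForm (Gamma0 N) 2)
    (n : ℕ) : qCoeff (CuspForm.heckeTLin 2 hp hpN f) n
      = qCoeff f (n * p) + if p ∣ n then (p : ℂ) * qCoeff f (n / p) else 0 := by
  have h := qCoeff_heckeTLin hp hpN f n
  norm_num at h ⊢
  exact h

lemma qCoeff_heckeULin [NeZero N] {p : ℕ} (hp : p ≠ 0) (hpN : p ∣ N)
    (f : CuspForm (Gamma0 N) k) (n : ℕ) :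
    qCoeff (CuspForm.heckeULin k hpN f) n = qCoeff f (n * p) := by
  rw [CuspForm.coe_heckeULin_apply, ModularFormClass.qCoeff_heckeU f (one_mem_periods N) hp n]
  rfl

/-- A cusp form, seen as a modular form. -/
def toModularFormLocal (f : CuspForm (Gamma0 N) k) : ModularForm (Gamma0 N) k where
  toFun := f
  slash_action_eq' := f.slash_action_eq'
  holo' := f.holo'
  bdd_at_cusps' := fun hc g hg => (f.zero_at_cusps' hc g hg).boundedAtFilter

lemma eq_zero_of_forall_qCoeff_eq_zero (f : CuspForm (Gamma0 N) k) (h : ∀ n, qCoeff f n = 0) :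
    f = 0 := by
  have hq : qExpansion 1 (toModularFormLocal f : ℍ → ℂ) = 0 := PowerSeries.ext fun n => by
    rw [map_zero]; exact h n
  have h0 : toModularFormLocal f = 0 :=
    (ModularForm.qExpansion_eq_zero_iff one_pos (one_mem_periods N) (toModularFormLocal f)).mp hq
  exact CuspForm.ext fun z => DFunLike.congr_fun h0 z

lemma ext_qCoeff {f g : CuspForm (Gamma0 N) k} (h : ∀ n, qCoeff f n = qCoeff g n) : f = g := by
  rw [← sub_eq_zero]
  exact eq_zero_of_forall_qCoeff_eq_zero _ fun n => by rw [qCoeff_sub, h, sub_self]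

lemma eq_zero_of_qCoeff_eq_zero_of_le [NeZero N] (f : CuspForm (Gamma0 N) k)
    (h : ∀ n, n ≤ (k * (Gamma0 N).index).toNat / 12 → qCoeff f n = 0) : f = 0 := by
  have h0 : toModularFormLocal f = 0 := ModularForm.sturm_bound_Gamma0 N (toModularFormLocal f) h
  exact CuspForm.ext fun z => DFunLike.congr_fun h0 z

/-- The Sturm bound gives finite dimensionality. -/
theorem finiteDimensional_cuspForm (N : ℕ) [NeZero N] (k : ℤ) :
    FiniteDimensional ℂ (CuspForm (Gamma0 N) k) := by
  let L : CuspForm (Gamma0 N) k →ₗ[ℂ] (Fin ((k * (Gamma0 N).index).toNat / 12 + 1) → ℂ) :=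
    LinearMap.pi fun i => qCoeffLin N k i
  refine FiniteDimensional.of_injective L (LinearMap.ker_eq_bot.mp ?_)
  rw [LinearMap.ker_eq_bot']
  intro f hf
  exact eq_zero_of_qCoeff_eq_zero_of_le f fun n hn => congrFun hf ⟨n, Nat.lt_succ_of_le hn⟩

end Fermat.Agent.Eigen
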